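import Fermat.Agent.SumsTwoCubesCount.Main
import Mathlib.NumberTheory.Chebyshev

/-!
# Squarefree sums of two cubes

In the class `x ≡ 1`, `y ≡ 0` modulo six the pairs with `p² ∣ x³ + y³` number
`4 n² / p² + O (n)` at most, and `∑_{p ≥ 5} 1 / p²` is less than a quarter.
-/

set_option autoImplicit false

noncomputable section

open Finset Filter
open scoped Topology

namespace FA.CubicTwistCount

/-- One class modulo `d` below `n`. -/
theorem class_card {n d : ℕ} (S : Finset ℕ) (hS : ∀ a ∈ S, a < n)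
    (h : ∀ a ∈ S, ∀ a' ∈ S, (d : ℤ) ∣ (a : ℤ) - a') : (S.card : ℝ) ≤ (n : ℝ) / d + 1 := by
  have hcard : S.card ≤ n / d + 1 := by
    refine (card_le_card_of_injOn (fun a => a / d) (t := range (n / d + 1)) (fun a ha => ?_)
      fun a ha a' ha' e => ?_).trans_eq (card_range _)
    · simpa using Nat.lt_succ_of_le (Nat.div_le_div_right (hS a ha).le)
    · have hm : a % d = a' % d := (Int.natCast_inj.1 (by
        push_cast
        exact Int.emod_eq_emod_iff_emod_sub_eq_zero.2 (Int.emod_eq_zero_of_dvd (h a ha a' ha'))))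
      rw [← Nat.div_add_mod a d, ← Nat.div_add_mod a' d, hm]
      simp only at e
      rw [e]
  calc (S.card : ℝ) ≤ ((n / d + 1 : ℕ) : ℝ) := Nat.cast_le.2 hcard
    _ ≤ _ := by push_cast; linarith [Nat.cast_div_le (α := ℝ) (m := n) (n := d)]

theorem cancel_six {p : ℕ} (hp : p.Prime) (h5 : 5 ≤ p) {k : ℕ} {z : ℤ}
    (h : ((p ^ k : ℕ) : ℤ) ∣ 6 * z) : ((p ^ k : ℕ) : ℤ) ∣ z := by
  refine IsCoprime.dvd_of_dvd_mul_left ?_ h
  rw [Int.isCoprime_iff_nat_coprime]
  refine Nat.Coprime.pow_left k ((hp.coprime_iff_not_dvd).2 fun hd => ?_)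
  have h2 : p ∣ 2 * 3 := by simpa using hd
  rcases (Nat.Prime.dvd_mul hp).1 h2 with h3 | h3
  · have := Nat.le_of_dvd two_pos h3; omega
  · have := Nat.le_of_dvd three_pos h3; omega

/-- The value at `(6 a + 1, 6 (b + 1))`. -/
def pairValue (w : ℕ × ℕ) : ℕ :=
  (6 * w.1 + 1) ^ 3 + (6 * (w.2 + 1)) ^ 3

/-- The pairs with a value divisible by `p²`. -/
def badPairs (n p : ℕ) : Finset (ℕ × ℕ) :=
  (range n ×ˢ range n).filter fun w => p ^ 2 ∣ pairValue w

/-- A set in the box with few points over every `b`. -/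
theorem fibre_sum_card {n : ℕ} {K : ℝ} (S : Finset (ℕ × ℕ))
    (hS : S ⊆ range n ×ˢ range n)
    (h : ∀ b < n, (((range n).filter fun a => (a, b) ∈ S).card : ℝ) ≤ K) :
    (S.card : ℝ) ≤ n * K := by
  have hsub : S ⊆ (range n).biUnion fun b =>
      ((range n).filter fun a => (a, b) ∈ S).image fun a => (a, b) := fun w hw => by
    obtain ⟨ha, hb⟩ := mem_product.1 (hS hw)
    exact mem_biUnion.2 ⟨w.2, hb, mem_image.2 ⟨w.1, mem_filter.2 ⟨ha, hw⟩, rfl⟩⟩
  calc (S.card : ℝ) ≤ ∑ b ∈ range n, (((range n).filter fun a => (a, b) ∈ S).card : ℝ) := by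
        exact_mod_cast (card_le_card hsub).trans
          (card_biUnion_le.trans (sum_le_sum fun b _ => card_image_le))
    _ ≤ ∑ _b ∈ range n, K := sum_le_sum fun b hb => h b (mem_range.1 hb)
    _ = _ := by rw [sum_const, card_range, nsmul_eq_mul]

/-- **The bad pairs of one prime.** -/
theorem badPairs_card {n p : ℕ} (hn : 1 ≤ n) (hp : p.Prime) (h5 : 5 ≤ p) :
    ((badPairs n p).card : ℝ) ≤ 4 * (n : ℝ) ^ 2 / p ^ 2 + 6 * n := by
  classical
  set X : ℕ × ℕ → ℤ := fun w => 6 * (w.1 : ℤ) + 1 with hX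
  set Y : ℕ × ℕ → ℤ := fun w => 6 * ((w.2 : ℤ) + 1) with hY
  set P : ℤ := ((p ^ 2 : ℕ) : ℤ) with hP
  have hpI : Prime (p : ℤ) := Nat.prime_iff_prime_int.1 hp
  have hPp : P = (p : ℤ) ^ 2 := by simp [hP]
  set A := (range n ×ˢ range n).filter fun w => P ∣ X w + Y w
  set B := (range n ×ˢ range n).filter fun w =>
    ¬(p : ℤ) ∣ Y w ∧ P ∣ X w ^ 2 - X w * Y w + Y w ^ 2
  set C := (range n ×ˢ range n).filter fun w => (p : ℤ) ∣ X w ∧ (p : ℤ) ∣ Y w
  have hcover : badPairs n p ⊆ A ∪ (B ∪ C) := by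
    intro w hw
    obtain ⟨hw1, hw2⟩ := mem_filter.1 hw
    have hd : P ∣ (X w + Y w) * (X w ^ 2 - X w * Y w + Y w ^ 2) := by
      have h := Int.natCast_dvd_natCast.2 hw2
      rw [pairValue] at h
      rw [hP]
      convert h using 1
      simp only [hX, hY]
      push_cast
      ring
    simp only [mem_union, A, B, C, mem_filter, hw1, true_and]
    by_cases hs : (p : ℤ) ∣ X w + Y w
    · by_cases hQ : (p : ℤ) ∣ X w ^ 2 - X w * Y w + Y w ^ 2
      · have h3 : (p : ℤ) ∣ 3 * (X w * Y w) := by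
          have := (dvd_mul_of_dvd_left hs (X w + Y w)).sub hQ
          rwa [show (X w + Y w) * (X w + Y w) - (X w ^ 2 - X w * Y w + Y w ^ 2) =
            3 * (X w * Y w) by ring] at this
        rcases hpI.dvd_or_dvd h3 with h | h
        · have := Int.le_of_dvd three_pos h; omega
        · rcases hpI.dvd_or_dvd h with h | h
          · exact Or.inr (Or.inr ⟨h, by simpa using hs.sub h⟩)
          · exact Or.inr (Or.inr ⟨by simpa using hs.sub h, h⟩)
      · rw [hPp] at hd ⊢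
        exact Or.inl (((hpI.coprime_iff_not_dvd.2 hQ).pow_left).dvd_of_dvd_mul_right hd)
    · rw [hPp] at hd ⊢
      have hQ := ((hpI.coprime_iff_not_dvd.2 hs).pow_left (m := 2)).dvd_of_dvd_mul_left hd
      refine Or.inr (Or.inl ⟨fun hy => hs ?_, hQ⟩)
      have h2 : (p : ℤ) ∣ X w ^ 2 := by
        have := ((dvd_pow_self _ two_ne_zero).trans hQ).sub (hy.mul_left (Y w - X w))
        rwa [show X w ^ 2 - X w * Y w + Y w ^ 2 - (Y w - X w) * Y w = X w ^ 2 by ring] at this
      exact (hpI.dvd_of_dvd_pow h2).add hy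
  have hp0 : (0 : ℝ) < p := Nat.cast_pos.2 hp.pos
  have hnn : (1 : ℝ) ≤ n := Nat.one_le_cast.2 hn
  have hA : (A.card : ℝ) ≤ n * ((n : ℝ) / (p ^ 2 : ℕ) + 1) := by
    refine fibre_sum_card A (filter_subset _ _) fun b _ => ?_
    refine class_card _ (fun a ha => mem_range.1 (mem_filter.1 ha).1)
      fun a ha a' ha' => cancel_six hp h5 ?_
    have h1 := (mem_filter.1 (mem_filter.1 ha).2).2
    have h2 := (mem_filter.1 (mem_filter.1 ha').2).2
    have := h1.sub h2
    simp only [hX, hY] at this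
    rwa [show 6 * (a : ℤ) + 1 + 6 * ((b : ℤ) + 1) - (6 * (a' : ℤ) + 1 + 6 * ((b : ℤ) + 1)) =
      6 * ((a : ℤ) - a') by ring] at this
  have hB : (B.card : ℝ) ≤ n * (2 * ((n : ℝ) / (p ^ 2 : ℕ) + 1)) := by
    refine fibre_sum_card B (filter_subset _ _) fun b _ => ?_
    set F := (range n).filter fun a => (a, b) ∈ B
    rcases F.eq_empty_or_nonempty with he | ⟨a₁, ha₁⟩
    · rw [he, card_empty, Nat.cast_zero]; positivity
    obtain ⟨hy, h1⟩ := (mem_filter.1 (mem_filter.1 ha₁).2).2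
    set F₁ := F.filter fun a : ℕ => P ∣ (a : ℤ) - (a₁ : ℤ)
    set F₂ := F.filter fun a : ℕ => P ∣ X (a, b) + X (a₁, b) - Y (a, b)
    have hsub : F ⊆ F₁ ∪ F₂ := fun a ha => by
      obtain ⟨hy', h2⟩ := (mem_filter.1 (mem_filter.1 ha).2).2
      have hd : P ∣ (X (a, b) - X (a₁, b)) * (X (a, b) + X (a₁, b) - Y (a, b)) := by
        have := h2.sub h1
        rwa [show X (a, b) ^ 2 - X (a, b) * Y (a, b) + Y (a, b) ^ 2 -
          (X (a₁, b) ^ 2 - X (a₁, b) * Y (a₁, b) + Y (a₁, b) ^ 2) =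
          (X (a, b) - X (a₁, b)) * (X (a, b) + X (a₁, b) - Y (a, b)) by
            simp only [hY]; ring] at this
      simp only [mem_union, F₁, F₂, mem_filter, ha, true_and]
      by_cases h : (p : ℤ) ∣ X (a, b) - X (a₁, b)
      · left
        have hn' : ¬(p : ℤ) ∣ X (a, b) + X (a₁, b) - Y (a, b) := fun h' => hy' (by
          have h3 : (p : ℤ) ∣ 2 * X (a, b) - Y (a, b) := by
            rw [show 2 * X (a, b) - Y (a, b) = X (a, b) - X (a₁, b) +
              (X (a, b) + X (a₁, b) - Y (a, b)) by ring]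
            exact h.add h'
          rw [hPp] at h2
          have h4 : (p : ℤ) ∣ 3 * Y (a, b) ^ 2 := by
            have := (((dvd_pow_self _ two_ne_zero).trans h2).mul_left 4).sub
              (h3.mul_left (2 * X (a, b) - Y (a, b)))
            rwa [show 4 * (X (a, b) ^ 2 - X (a, b) * Y (a, b) + Y (a, b) ^ 2) -
              (2 * X (a, b) - Y (a, b)) * (2 * X (a, b) - Y (a, b)) = 3 * Y (a, b) ^ 2 by
                ring] at this
          rcases hpI.dvd_or_dvd h4 with h5' | h5'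
          · have := Int.le_of_dvd three_pos h5'; omega
          · exact hpI.dvd_of_dvd_pow h5')
        rw [hPp] at hd
        have := ((hpI.coprime_iff_not_dvd.2 hn').pow_left (m := 2)).dvd_of_dvd_mul_right hd
        rw [hP]
        refine cancel_six hp h5 ?_
        rw [show 6 * ((a : ℤ) - a₁) = X (a, b) - X (a₁, b) by simp only [hX]; ring]
        simpa using this
      · right
        rw [hPp] at hd ⊢
        exact ((hpI.coprime_iff_not_dvd.2 h).pow_left).dvd_of_dvd_mul_left hd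
    have e1 : (F₁.card : ℝ) ≤ (n : ℝ) / (p ^ 2 : ℕ) + 1 := by
      refine class_card _
        (fun a ha => mem_range.1 (mem_filter.1 (mem_filter.1 ha).1).1) fun a ha a' ha' => ?_
      simpa [hP] using (mem_filter.1 ha).2.sub (mem_filter.1 ha').2
    have e2 : (F₂.card : ℝ) ≤ (n : ℝ) / (p ^ 2 : ℕ) + 1 := by
      refine class_card _
        (fun a ha => mem_range.1 (mem_filter.1 (mem_filter.1 ha).1).1) fun a ha a' ha' =>
          cancel_six hp h5 ?_
      have := (mem_filter.1 ha).2.sub (mem_filter.1 ha').2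
      rwa [show X (a, b) + X (a₁, b) - Y (a, b) - (X (a', b) + X (a₁, b) - Y (a', b)) =
        6 * ((a : ℤ) - a') by simp only [hX, hY]; ring] at this
    calc (F.card : ℝ) ≤ (F₁.card : ℝ) + F₂.card := by
          exact_mod_cast (card_le_card hsub).trans (card_union_le _ _)
      _ ≤ _ := by linarith
  have hC : (C.card : ℝ) ≤ ((n : ℝ) / p + 1) * ((n : ℝ) / p + 1) := by
    have hsub : C ⊆ ((range n).filter fun a : ℕ => (p : ℤ) ∣ 6 * (a : ℤ) + 1) ×ˢ
        ((range n).filter fun b : ℕ => (p : ℤ) ∣ 6 * ((b : ℤ) + 1)) := fun w hw => by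
      obtain ⟨h1, h2⟩ := mem_filter.1 hw
      obtain ⟨ha, hb⟩ := mem_product.1 h1
      exact mem_product.2 ⟨mem_filter.2 ⟨ha, h2.1⟩, mem_filter.2 ⟨hb, h2.2⟩⟩
    have hp1 : ∀ z : ℤ, (p : ℤ) ∣ 6 * z → (p : ℤ) ∣ z := fun z hz => by
      simpa using cancel_six hp h5 (k := 1) (z := z) (by simpa using hz)
    refine (Nat.cast_le.2 (card_le_card hsub)).trans ?_
    rw [card_product, Nat.cast_mul]
    refine mul_le_mul ?_ ?_ (Nat.cast_nonneg _) (by positivity) <;>
      refine class_card _ (fun a ha => mem_range.1 (mem_filter.1 ha).1)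
        fun a ha a' ha' => hp1 _ ?_
    · have := (mem_filter.1 ha).2.sub (mem_filter.1 ha').2
      rwa [show 6 * (a : ℤ) + 1 - (6 * (a' : ℤ) + 1) = 6 * ((a : ℤ) - a') by ring] at this
    · have := (mem_filter.1 ha).2.sub (mem_filter.1 ha').2
      rwa [show 6 * ((a : ℤ) + 1) - 6 * ((a' : ℤ) + 1) = 6 * ((a : ℤ) - a') by ring] at this
  have hC' : ((n : ℝ) / p + 1) * ((n : ℝ) / p + 1) ≤ (n : ℝ) ^ 2 / p ^ 2 + 3 * n := by
    have h1 : (n : ℝ) / p ≤ n := div_le_self (by positivity) (Nat.one_le_cast.2 hp.one_lt.le)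
    rw [← div_pow]
    nlinarith
  calc ((badPairs n p).card : ℝ) ≤ (A.card : ℝ) + ((B.card : ℝ) + C.card) := by
        exact_mod_cast (card_le_card hcover).trans ((card_union_le _ _).trans
          (Nat.add_le_add_left (card_union_le _ _) _))
    _ ≤ n * ((n : ℝ) / (p ^ 2 : ℕ) + 1) + (n * (2 * ((n : ℝ) / (p ^ 2 : ℕ) + 1)) +
        ((n : ℝ) ^ 2 / p ^ 2 + 3 * n)) := add_le_add hA (add_le_add hB (hC.trans hC'))
    _ = _ := by push_cast; ring

/-- `∑_{p ≥ 5} 1 / p²` is small. -/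
theorem prime_inv_sq_sum_le (L : ℕ) :
    ∑ p ∈ (L + 1).primesBelow.filter (5 ≤ ·), ((p : ℝ) ^ 2)⁻¹ ≤ 31 / 150 := by
  have hsub : (L + 1).primesBelow.filter (5 ≤ ·) ⊆ insert 5 (Ioc 6 (max L 6)) := fun p hp => by
    obtain ⟨hp1, hp5⟩ := mem_filter.1 hp
    rw [Nat.mem_primesBelow] at hp1
    have h6 : p ≠ 6 := by rintro rfl; exact absurd hp1.2 (by norm_num)
    simp only [mem_insert, mem_Ioc]
    omega
  refine (sum_le_sum_of_subset_of_nonneg hsub fun p _ _ => by positivity).trans ?_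
  rw [sum_insert (by simp)]
  have h := sum_Ioc_inv_sq_le_sub (α := ℝ) (k := 6) (by norm_num) (le_max_right L 6)
  have h0 : (0 : ℝ) ≤ ((max L 6 : ℕ) : ℝ)⁻¹ := by positivity
  push_cast at h h0 ⊢
  norm_num at h ⊢
  linarith

/-- The pairs with a squarefree value. -/
def goodPairs (n : ℕ) : Finset (ℕ × ℕ) :=
  (range n ×ˢ range n).filter fun w => Squarefree (pairValue w)

theorem goodPairs_card {n : ℕ} (hn : 1 ≤ n) :
    (n : ℝ) ^ 2 * (13 / 75) ≤ (goodPairs n).card + 6 * n * Nat.primeCounting (12 * n) := by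
  classical
  set Ps := (12 * n + 1).primesBelow.filter (5 ≤ ·)
  have hcover : range n ×ˢ range n ⊆ goodPairs n ∪ Ps.biUnion (badPairs n) := by
    intro w hw
    by_cases hsq : Squarefree (pairValue w)
    · exact mem_union_left _ (mem_filter.2 ⟨hw, hsq⟩)
    rw [Nat.squarefree_iff_prime_squarefree] at hsq
    push Not at hsq
    obtain ⟨p, hp, hpd⟩ := hsq
    obtain ⟨ha, hb⟩ := mem_product.1 hw
    rw [mem_range] at ha hb
    have h5 : 5 ≤ p := by
      have hmod : pairValue w % 6 = 1 := by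
        simp [pairValue, Nat.add_mod, Nat.pow_mod]
      by_contra h
      have h6 : p ∣ 6 := by
        have h2 : p = 2 ∨ p = 3 := by
          have := hp.two_le
          have : p ≠ 4 := by rintro rfl; exact absurd hp (by norm_num)
          omega
        rcases h2 with rfl | rfl <;> norm_num
      have := (Nat.dvd_mod_iff h6).2 ((dvd_mul_right p p).trans hpd)
      rw [hmod] at this
      exact hp.one_lt.ne' (Nat.dvd_one.1 this)
    refine mem_union_right _ (mem_biUnion.2 ⟨p, mem_filter.2 ⟨Nat.mem_primesBelow.2 ⟨?_, hp⟩, h5⟩,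
      mem_filter.2 ⟨hw, by rwa [sq]⟩⟩)
    by_contra hlt
    set x := 6 * w.1 + 1 with hx
    set y := 6 * (w.2 + 1) with hy
    have hprod : ((p : ℤ) * p) ∣ ((x : ℤ) + y) * ((x : ℤ) ^ 2 - x * y + (y : ℤ) ^ 2) := by
      have h := Int.natCast_dvd_natCast.2 hpd
      simp only [pairValue, ← hx, ← hy] at h
      push_cast at h
      convert h using 1
      ring
    have hxn : (x : ℤ) ≤ 6 * n := by omega
    have hyn : (y : ℤ) ≤ 6 * n := by omega
    have hpn : (12 * n : ℤ) < p := by omega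
    have hs : ¬(p : ℤ) ∣ (x : ℤ) + y := fun h => by
      have := Int.le_of_dvd (by omega) h
      omega
    have hQ := (((Nat.prime_iff_prime_int.1 hp).coprime_iff_not_dvd.2 hs).mul_left
      ((Nat.prime_iff_prime_int.1 hp).coprime_iff_not_dvd.2 hs)).dvd_of_dvd_mul_left hprod
    have hQ0 : 0 < (x : ℤ) ^ 2 - x * y + (y : ℤ) ^ 2 := by
      nlinarith [sq_nonneg ((x : ℤ) - y), (show (1 : ℤ) ≤ x by omega)]
    have h1 := Int.le_of_dvd hQ0 hQ
    nlinarith
  have hbad : ((Ps.biUnion (badPairs n)).card : ℝ) ≤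
      62 / 75 * (n : ℝ) ^ 2 + 6 * n * Nat.primeCounting (12 * n) := by
    calc ((Ps.biUnion (badPairs n)).card : ℝ) ≤ ∑ p ∈ Ps, ((badPairs n p).card : ℝ) := by
          exact_mod_cast card_biUnion_le
      _ ≤ ∑ p ∈ Ps, (4 * (n : ℝ) ^ 2 * ((p : ℝ) ^ 2)⁻¹ + 6 * n) := sum_le_sum fun p hp => by
          obtain ⟨hp1, h5⟩ := mem_filter.1 hp
          exact (badPairs_card hn (Nat.mem_primesBelow.1 hp1).2 h5).trans_eq
            (by rw [div_eq_mul_inv])
      _ = 4 * (n : ℝ) ^ 2 * ∑ p ∈ Ps, ((p : ℝ) ^ 2)⁻¹ + Ps.card * (6 * n) := by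
          rw [sum_add_distrib, ← mul_sum, sum_const, nsmul_eq_mul]
      _ ≤ 4 * (n : ℝ) ^ 2 * (31 / 150) + Nat.primeCounting (12 * n) * (6 * n) := by
          refine add_le_add (mul_le_mul_of_nonneg_left (prime_inv_sq_sum_le _) (by positivity))
            (mul_le_mul_of_nonneg_right (Nat.cast_le.2 ?_) (by positivity))
          rw [Nat.primeCounting_eq_primeCounting'_succ, ← Nat.primesBelow_card_eq_primeCounting']
          exact card_le_card (filter_subset _ _)
      _ = _ := by ring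
  have h : (n : ℝ) * n ≤ (goodPairs n).card + ((Ps.biUnion (badPairs n)).card : ℝ) := by
    have h := (card_le_card hcover).trans (card_union_le _ _)
    rw [card_product, card_range] at h
    exact_mod_cast h
  linarith [show (n : ℝ) * n = (n : ℝ) ^ 2 by ring]

/-- The squarefree values. -/
def squarefreeValues (n : ℕ) : Finset ℕ :=
  (goodPairs n).image pairValue

theorem goodPairs_card_le (n : ℕ) :
    (goodPairs n).card ≤
      (squarefreeValues n).card + (SumsTwoCubesCount.equalCubes (6 * n)).card := by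
  classical
  set R := (goodPairs n).filter fun w => ∃ w' ∈ goodPairs n, w' ≠ w ∧ pairValue w' = pairValue w
  have hinj : Set.InjOn pairValue ((goodPairs n).filter fun w => w ∉ R) := fun w hw w' hw' e => by
    obtain ⟨h1, h2⟩ := mem_filter.1 hw
    by_contra hne
    exact h2 (mem_filter.2 ⟨h1, w', (mem_filter.1 hw').1, Ne.symm hne, e.symm⟩)
  have h1 : ((goodPairs n).filter fun w => w ∉ R).card ≤ (squarefreeValues n).card :=
    card_le_card_of_injOn _ (fun w hw => mem_image_of_mem _ (mem_filter.1 hw).1) hinj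
  have hex : ∀ w ∈ R, ∃ w' ∈ goodPairs n, w' ≠ w ∧ pairValue w' = pairValue w :=
    fun w hw => (mem_filter.1 hw).2
  choose! q hq hne he using hex
  have h2 : R.card ≤ (SumsTwoCubesCount.equalCubes (6 * n)).card := by
    refine card_le_card_of_injOn (fun w => (((6 * w.1 + 1 : ℕ) : ℤ), ((6 * (w.2 + 1) : ℕ) : ℤ),
      ((6 * (q w).1 + 1 : ℕ) : ℤ), ((6 * ((q w).2 + 1) : ℕ) : ℤ))) (fun w hw => ?_)
      fun w _ w' _ e => ?_
    · have hw' := (mem_product.1 (mem_filter.1 (mem_filter.1 hw).1).1)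
      have hq' := (mem_product.1 (mem_filter.1 (hq w hw)).1)
      have hne' := hne w hw
      have he' := he w hw
      simp only [mem_range] at hw' hq'
      simp only [ne_eq, Prod.ext_iff] at hne'
      simp only [pairValue] at he'
      simp only [mem_coe, SumsTwoCubesCount.mem_equalCubes, Nat.cast_inj]
      refine ⟨by omega, by exact_mod_cast he'.symm, by omega, by omega⟩
    · simp only [Prod.mk.injEq, Nat.cast_inj] at e
      exact Prod.ext (by omega) (by omega)
  have h3 := card_filter_add_card_filter_not (s := goodPairs n) (p := fun w => w ∈ R)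
  have h4 : ((goodPairs n).filter fun w => w ∈ R).card ≤ R.card :=
    card_le_card fun w hw => (mem_filter.1 hw).2
  omega

theorem eventually_values_ge :
    ∀ᶠ n : ℕ in atTop, (n : ℝ) ^ 2 / 20 ≤ (squarefreeValues n).card := by
  obtain ⟨C, hC, hcubes⟩ := SumsTwoCubesCount.equalCubes_bound (ε := 1 / 8) (by norm_num)
  have hpi : ∀ᶠ n : ℕ in atTop, (Nat.primeCounting (12 * n) : ℝ) ≤ 1 / 100 * n := by
    have ht : Tendsto (fun n : ℕ => 12 * (n : ℝ)) atTop atTop :=
      tendsto_natCast_atTop_atTop.const_mul_atTop (by norm_num)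
    have hlog := (Real.tendsto_log_atTop.comp ht).eventually
      (eventually_ge_atTop (1200 * (Real.log 4 + 1)))
    filter_upwards [ht.eventually (Chebyshev.eventually_primeCounting_le one_pos), hlog,
      eventually_ge_atTop 1] with n h h2 hn
    have e : ⌊(12 : ℝ) * n⌋₊ = 12 * n := by
      rw [show (12 : ℝ) * n = ((12 * n : ℕ) : ℝ) by push_cast; ring, Nat.floor_natCast]
    rw [e] at h
    simp only [Function.comp_apply] at h2
    have hl4 : 0 < Real.log 4 := Real.log_pos (by norm_num)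
    refine h.trans ?_
    rw [div_le_iff₀ (by linarith)]
    have hn' : (1 : ℝ) ≤ n := Nat.one_le_cast.2 hn
    nlinarith
  have hsmall : ∀ᶠ n : ℕ in atTop, C * (6 * (n : ℝ)) ^ (7 / 4 + 1 / 8 : ℝ) ≤
      1 / 20 * (n : ℝ) ^ 2 := by
    have h := ((tendsto_rpow_neg_atTop (show (0 : ℝ) < 1 / 8 by norm_num)).comp
      tendsto_natCast_atTop_atTop).const_mul (C * (6 : ℝ) ^ (7 / 4 + 1 / 8 : ℝ))
    rw [mul_zero] at h
    filter_upwards [h.eventually (eventually_le_nhds (show (0 : ℝ) < 1 / 20 by norm_num)),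
      eventually_gt_atTop 0] with n hn hn0
    have hn0' : (0 : ℝ) < n := Nat.cast_pos.2 hn0
    simp only [Function.comp_apply] at hn
    calc C * (6 * (n : ℝ)) ^ (7 / 4 + 1 / 8 : ℝ)
        = C * (6 : ℝ) ^ (7 / 4 + 1 / 8 : ℝ) * (n : ℝ) ^ (-(1 / 8) : ℝ) * (n : ℝ) ^ 2 := by
          rw [mul_assoc (C * _), ← Real.rpow_natCast (n : ℝ) 2, ← Real.rpow_add hn0',
            Real.mul_rpow (by norm_num) hn0'.le, ← mul_assoc]
          norm_num
      _ ≤ _ := mul_le_mul_of_nonneg_right hn (sq_nonneg _)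
  filter_upwards [hpi, hsmall, eventually_ge_atTop 1] with n h1 h2 hn
  have h3 := goodPairs_card hn
  have h4 : ((goodPairs n).card : ℝ) ≤
      (squarefreeValues n).card + ((SumsTwoCubesCount.equalCubes (6 * n)).card : ℝ) := by
    exact_mod_cast goodPairs_card_le n
  have h5 := hcubes (6 * n) (by omega)
  push_cast at h5
  have h6 := mul_le_mul_of_nonneg_left h1 (show (0 : ℝ) ≤ 6 * n by positivity)
  linarith [show 6 * (n : ℝ) * (1 / 100 * n) = 6 / 100 * (n : ℝ) ^ 2 by ring]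

theorem mem_squarefreeValues {n m : ℕ} (hm : m ∈ squarefreeValues n) :
    m ≤ 432 * n ^ 3 ∧ Squarefree m ∧
      ∃ x y : ℕ, 0 < x ∧ 0 < y ∧ x ≠ y ∧ x ^ 3 + y ^ 3 = m := by
  obtain ⟨⟨a, b⟩, hw, rfl⟩ := mem_image.1 hm
  obtain ⟨hw1, hw2⟩ := mem_filter.1 hw
  simp only [mem_product, mem_range] at hw1
  refine ⟨?_, hw2, 6 * a + 1, 6 * (b + 1), by omega, by omega, by omega, rfl⟩
  calc pairValue (a, b) ≤ (6 * n) ^ 3 + (6 * n) ^ 3 :=
        Nat.add_le_add (Nat.pow_le_pow_left (by simp only; omega) 3)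
          (Nat.pow_le_pow_left (by simp only; omega) 3)
    _ = _ := by ring

/-- The count up to `N`. -/
theorem eventually_ncard_ge (P : ℕ → Prop)
    (hP : ∀ m x y : ℕ, Squarefree m → 0 < x → 0 < y → x ≠ y → x ^ 3 + y ^ 3 = m → P m) :
    ∃ c : ℝ, 0 < c ∧ ∀ᶠ N : ℕ in atTop,
      c * (N : ℝ) ^ (2 / 3 : ℝ) ≤ ({m | m ≤ N ∧ Squarefree m ∧ P m}.ncard : ℝ) := by
  refine ⟨(432 : ℝ) ^ (-(2 / 3) : ℝ) / 80, by positivity, ?_⟩
  have ht : Tendsto (fun N : ℕ => ((N : ℝ) / 432) ^ (1 / 3 : ℝ)) atTop atTop :=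
    (tendsto_rpow_atTop (by norm_num)).comp
      (tendsto_natCast_atTop_atTop.atTop_div_const (by norm_num))
  filter_upwards [(tendsto_nat_floor_atTop.comp ht).eventually eventually_values_ge,
    ht.eventually (eventually_ge_atTop 2)] with N hN h2
  set T := ((N : ℝ) / 432) ^ (1 / 3 : ℝ) with hT
  simp only [Function.comp_apply, ← hT] at hN
  set n := ⌊T⌋₊
  have hn : (n : ℝ) ≤ T := Nat.floor_le (by linarith)
  have hn' : T / 2 ≤ n := by linarith [Nat.lt_floor_add_one T]
  have hT3 : T ^ 3 = (N : ℝ) / 432 := by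
    rw [hT, ← Real.rpow_natCast _ 3, ← Real.rpow_mul (by positivity)]
    norm_num
  have hN3 : 432 * n ^ 3 ≤ N := by
    have h := pow_le_pow_left₀ (Nat.cast_nonneg n) hn 3
    rw [hT3, le_div_iff₀ (by norm_num)] at h
    rw [mul_comm]
    exact_mod_cast h
  have hset : (squarefreeValues n).card ≤ {m | m ≤ N ∧ Squarefree m ∧ P m}.ncard := by
    rw [← Set.ncard_coe_finset]
    refine Set.ncard_le_ncard (fun m hm => ?_)
      ((Set.finite_Iic N).subset fun m hm => hm.1)
    obtain ⟨h1, hsq, x, y, hx, hy, hxy, he⟩ := mem_squarefreeValues hm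
    exact ⟨h1.trans hN3, hsq, hP m x y hsq hx hy hxy he⟩
  calc (432 : ℝ) ^ (-(2 / 3) : ℝ) / 80 * (N : ℝ) ^ (2 / 3 : ℝ)
      = T ^ 2 / 80 := by
        rw [hT, ← Real.rpow_natCast _ 2, ← Real.rpow_mul (by positivity),
          Real.div_rpow (Nat.cast_nonneg _) (by norm_num), Real.rpow_neg (by norm_num)]
        norm_num
        ring
    _ ≤ (n : ℝ) ^ 2 / 20 := by
        have := pow_le_pow_left₀ (by linarith) hn' 2
        linarith [show (T / 2) ^ 2 = T ^ 2 / 4 by ring]
    _ ≤ (squarefreeValues n).card := hN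
    _ ≤ _ := Nat.cast_le.2 hset

end FA.CubicTwistCount

end
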